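import Mathlib
import Fermat.Prelude.Def_ModularCurve_PeriodHomPair
import Fermat.Prelude.Sol.S_ModularForm_heckeT_slash_eq_self_of_mem_Gamma0

/-!
# Hecke operators on `Hom(Γ₀(N), A)`

For a prime `ℓ ∤ N` (resp. `q ∣ N`) and the standard coset representatives `M_x` of the Prelude
(`heckeRep ℓ x`, `x ∈ ℙ¹(𝔽_ℓ)`; resp. `heckeMatrix q x.val`, `x ∈ ℤ/q`), every `γ ∈ Γ₀(N)` gives
`M_x γ = δ_x M_{σ x}` with `δ_x ∈ Γ₀(N)` and a permutation `σ`.  The Hecke operator on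
homomorphisms is `(T φ)(γ) = ∑ₓ φ(δₓ)`.

Main declarations (namespace `Fermat.Agent.Lib.HeckeHom`):
* `delT`, `delT_spec`, `delU`, `delU_spec`: the elements `δ_x` and their defining identity.
* `sum_heckeRep_smul`, `sum_heckeMatrix_smul`: the telescoping identity for any function `F` on a
  `GL₂(ℝ)`-set with `F (γ • y) = φ γ + F y`.
* `homT`, `homU`: the operators, additive in `φ`; `homT_apply`, `homU_apply`;
  `homT_comp`, `homU_comp` (base change in the coefficient group).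
-/

set_option autoImplicit false

open UpperHalfPlane Matrix.SpecialLinearGroup CongruenceSubgroup
open scoped MatrixGroups ModularForm
open P2MW.S_ModularForm_heckeT_slash_eq_self_of_mem_Gamma0.ModularForm.HeckeSlashInvariance

namespace Fermat.Agent.Lib.HeckeHom

/-! ### An abstract primitive on the ambient group -/

/-- For an injective homomorphism `ι : Γ → G` and an additive character `φ` of `Γ` there is a
function `F` on `G` with `F (ι γ * g) = φ γ + F g`. -/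
theorem exists_primitive_of_injective {Γ G A : Type*} [Group Γ] [Group G] [AddCommGroup A]
    (ι : Γ →* G) (hι : Function.Injective ι) (φ : Additive Γ →+ A) :
    ∃ F : G → A, ∀ (γ : Γ) (g : G), F (ι γ * g) = φ (Additive.ofMul γ) + F g := by
  classical
  let s : Setoid G :=
    { r := fun g g' => ∃ γ : Γ, g' = ι γ * g
      iseqv :=
        { refl := fun g => ⟨1, by simp⟩
          symm := by
            rintro g g' ⟨γ, rfl⟩
            exact ⟨γ⁻¹, by simp [← mul_assoc]⟩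
          trans := by
            rintro g g' g'' ⟨γ, rfl⟩ ⟨γ', rfl⟩
            exact ⟨γ' * γ, by simp [mul_assoc]⟩ } }
  let r : G → G := fun g => Quotient.out (Quotient.mk s g)
  have hr : ∀ g, ∃ γ : Γ, g = ι γ * r g := fun g => Quotient.mk_out (s := s) g
  choose c hc using hr
  have hrr : ∀ (γ : Γ) (g : G), r (ι γ * g) = r g := by
    intro γ g
    have : Quotient.mk s (ι γ * g) = Quotient.mk s g := Quotient.sound ⟨γ⁻¹, by simp [← mul_assoc]⟩
    simp only [r, this]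
  refine ⟨fun g => φ (Additive.ofMul (c g)), fun γ g => ?_⟩
  have h1 : ι (c (ι γ * g)) * r g = ι (γ * c g) * r g := by
    have := hc (ι γ * g)
    rw [hrr] at this
    rw [← this, map_mul, mul_assoc, ← hc g]
  have h2 : c (ι γ * g) = γ * c g := hι (mul_right_cancel h1)
  show φ (Additive.ofMul (c (ι γ * g))) = φ (Additive.ofMul γ) + φ (Additive.ofMul (c g))
  rw [h2, ofMul_mul, map_add]

variable (N : ℕ)

/-- The embedding `Γ₀(N) → GL₂(ℝ)`. -/
noncomputable def gamma0ToGL : Gamma0 N →* GL (Fin 2) ℝ :=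
  (mapGL ℝ).comp (Gamma0 N).subtype

theorem gamma0ToGL_apply (γ : Gamma0 N) : gamma0ToGL N γ = mapGL ℝ (γ : SL(2, ℤ)) := rfl

theorem gamma0ToGL_injective : Function.Injective (gamma0ToGL N) := by
  intro a b h
  exact Subtype.ext (mapGL_injective (R := ℤ) (S := ℝ) h)

/-- Every additive character of `Γ₀(N)` has a "primitive" on `GL₂(ℝ)`. -/
theorem exists_primitive_GL {A : Type*} [AddCommGroup A] (φ : Additive (Gamma0 N) →+ A) :
    ∃ F : GL (Fin 2) ℝ → A, ∀ (γ : Gamma0 N) (g : GL (Fin 2) ℝ),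
      F (mapGL ℝ (γ : SL(2, ℤ)) * g) = φ (Additive.ofMul γ) + F g :=
  exists_primitive_of_injective (gamma0ToGL N) (gamma0ToGL_injective N) φ


variable {N}

/-! ### The operators `T_ℓ`, `ℓ ∤ N` -/

section T

variable {ℓ : ℕ} [Fact ℓ.Prime] (hℓN : ¬ ℓ ∣ N)

include hℓN in
theorem exists_delT (γ : Gamma0 N) (x : OnePoint (ZMod ℓ)) :
    ∃ δ : Gamma0 N, heckeRep ℓ x * mapGL ℝ (γ : SL(2, ℤ)) =
      mapGL ℝ (δ : SL(2, ℤ)) * heckeRep ℓ (redMatrix ℓ (γ : SL(2, ℤ)) • x) := by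
  have hγN : (N : ℤ) ∣ (γ : SL(2, ℤ)) 1 0 :=
    (ZMod.intCast_zmod_eq_zero_iff_dvd _ _).mp (Gamma0_mem.mp γ.2)
  obtain ⟨g', hg', hmul⟩ := heckeRep_mul hℓN (γ : SL(2, ℤ)) hγN x
  exact ⟨⟨g', Gamma0_mem.mpr ((ZMod.intCast_zmod_eq_zero_iff_dvd _ _).mpr hg')⟩, hmul⟩

/-- The element `δ_x ∈ Γ₀(N)` with `M_x γ = δ_x M_{σ x}` (`M_x = heckeRep ℓ x`,
`σ x = redMatrix ℓ γ • x`). -/
noncomputable def delT (γ : Gamma0 N) (x : OnePoint (ZMod ℓ)) : Gamma0 N :=
  (exists_delT hℓN γ x).choose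

theorem delT_spec (γ : Gamma0 N) (x : OnePoint (ZMod ℓ)) :
    heckeRep ℓ x * mapGL ℝ (γ : SL(2, ℤ)) =
      mapGL ℝ (delT hℓN γ x : SL(2, ℤ)) * heckeRep ℓ (redMatrix ℓ (γ : SL(2, ℤ)) • x) :=
  (exists_delT hℓN γ x).choose_spec

/-- The same identity for an action of `GL₂(ℝ)`. -/
theorem delT_smul {Y : Type*} [MulAction (GL (Fin 2) ℝ) Y] (γ : Gamma0 N)
    (x : OnePoint (ZMod ℓ)) (y : Y) :
    heckeRep ℓ x • mapGL ℝ (γ : SL(2, ℤ)) • y =
      mapGL ℝ (delT hℓN γ x : SL(2, ℤ)) • heckeRep ℓ (redMatrix ℓ (γ : SL(2, ℤ)) • x) • y := by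
  rw [← mul_smul, delT_spec hℓN, mul_smul]

/-- **Telescoping.** If `F (γ • y) = φ γ + F y` for `γ ∈ Γ₀(N)`, then
`∑ₓ F (M_x • γ • y) = ∑ₓ φ (δ_x) + ∑ₓ F (M_x • y)`. -/
theorem sum_heckeRep_smul {A : Type*} [AddCommGroup A] {Y : Type*} [MulAction (GL (Fin 2) ℝ) Y]
    (φ : Additive (Gamma0 N) →+ A) (F : Y → A)
    (hF : ∀ (γ : Gamma0 N) (y : Y),
      F (mapGL ℝ (γ : SL(2, ℤ)) • y) = φ (Additive.ofMul γ) + F y)
    (γ : Gamma0 N) (y : Y) :
    ∑ x : OnePoint (ZMod ℓ), F (heckeRep ℓ x • mapGL ℝ (γ : SL(2, ℤ)) • y) =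
      ∑ x : OnePoint (ZMod ℓ), φ (Additive.ofMul (delT hℓN γ x)) +
        ∑ x : OnePoint (ZMod ℓ), F (heckeRep ℓ x • y) := by
  have step : ∀ x : OnePoint (ZMod ℓ), F (heckeRep ℓ x • mapGL ℝ (γ : SL(2, ℤ)) • y) =
      φ (Additive.ofMul (delT hℓN γ x)) +
        F (heckeRep ℓ (redMatrix ℓ (γ : SL(2, ℤ)) • x) • y) := by
    intro x
    rw [delT_smul hℓN, hF]
  simp_rw [step]
  rw [Finset.sum_add_distrib]
  congr 1
  exact Equiv.sum_comp (MulAction.toPerm (redMatrix ℓ (γ : SL(2, ℤ))))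
    (fun x => F (heckeRep ℓ x • y))

theorem sum_delT_mul {A : Type*} [AddCommGroup A] (φ : Additive (Gamma0 N) →+ A)
    (a b : Gamma0 N) :
    ∑ x : OnePoint (ZMod ℓ), φ (Additive.ofMul (delT hℓN (a * b) x)) =
      ∑ x : OnePoint (ZMod ℓ), φ (Additive.ofMul (delT hℓN a x)) +
        ∑ x : OnePoint (ZMod ℓ), φ (Additive.ofMul (delT hℓN b x)) := by
  obtain ⟨F, hF⟩ := exists_primitive_GL N φ
  have key := sum_heckeRep_smul hℓN φ F (fun γ y => hF γ y)
  have h1 := key (a * b) 1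
  have h2 := key a (mapGL ℝ (b : SL(2, ℤ)) • (1 : GL (Fin 2) ℝ))
  have h3 := key b 1
  have e : mapGL ℝ ((a * b : Gamma0 N) : SL(2, ℤ)) • (1 : GL (Fin 2) ℝ) =
      mapGL ℝ (a : SL(2, ℤ)) • mapGL ℝ (b : SL(2, ℤ)) • (1 : GL (Fin 2) ℝ) := by
    rw [Subgroup.coe_mul, map_mul, mul_smul]
  rw [e, h2, h3] at h1
  have h4 : ∑ x : OnePoint (ZMod ℓ), φ (Additive.ofMul (delT hℓN a x)) +
      ∑ x : OnePoint (ZMod ℓ), φ (Additive.ofMul (delT hℓN b x)) +
        ∑ x : OnePoint (ZMod ℓ), F (heckeRep ℓ x • (1 : GL (Fin 2) ℝ)) =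
      ∑ x : OnePoint (ZMod ℓ), φ (Additive.ofMul (delT hℓN (a * b) x)) +
        ∑ x : OnePoint (ZMod ℓ), F (heckeRep ℓ x • (1 : GL (Fin 2) ℝ)) := by
    rw [← h1, add_assoc]
  exact (add_right_cancel h4).symm

variable (A : Type*) [AddCommGroup A]

/-- The Hecke operator `T_ℓ` (`ℓ ∤ N`) on `Hom(Γ₀(N), A)`: `(T φ)(γ) = ∑ₓ φ(δₓ)`. -/
noncomputable def homT : (Additive (Gamma0 N) →+ A) →+ (Additive (Gamma0 N) →+ A) :=
  AddMonoidHom.mk'
    (fun φ => AddMonoidHom.mk'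
      (fun γ => ∑ x : OnePoint (ZMod ℓ), φ (Additive.ofMul (delT hℓN (Additive.toMul γ) x)))
      (fun a b => sum_delT_mul hℓN φ (Additive.toMul a) (Additive.toMul b)))
    (fun φ ψ => by
      refine AddMonoidHom.ext fun γ => ?_
      simp [Finset.sum_add_distrib])

variable {A}

theorem homT_apply (φ : Additive (Gamma0 N) →+ A) (γ : Gamma0 N) :
    homT hℓN A φ (Additive.ofMul γ) =
      ∑ x : OnePoint (ZMod ℓ), φ (Additive.ofMul (delT hℓN γ x)) := rfl

/-- Base change in the coefficient group. -/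
theorem homT_comp {B : Type*} [AddCommGroup B] (f : A →+ B) (φ : Additive (Gamma0 N) →+ A) :
    homT hℓN B (f.comp φ) = f.comp (homT hℓN A φ) := by
  refine AddMonoidHom.ext fun γ => ?_
  obtain ⟨γ, rfl⟩ := Additive.ofMul.surjective γ
  simp [homT_apply]

theorem homT_smul {R : Type*} [Semiring R] [Module R A] (c : R)
    (φ : Additive (Gamma0 N) →+ A) : homT hℓN A (c • φ) = c • homT hℓN A φ := by
  refine AddMonoidHom.ext fun γ => ?_
  obtain ⟨γ, rfl⟩ := Additive.ofMul.surjective γ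
  simp [homT_apply, Finset.smul_sum]

/-- `T_ℓ` as an `R`-linear map. -/
noncomputable def homTLin (R : Type*) [Semiring R] (A : Type*) [AddCommGroup A] [Module R A] :
    (Additive (Gamma0 N) →+ A) →ₗ[R] (Additive (Gamma0 N) →+ A) where
  toFun := homT hℓN A
  map_add' := map_add _
  map_smul' c φ := homT_smul hℓN c φ

@[simp] theorem homTLin_apply (R : Type*) [Semiring R] [Module R A]
    (φ : Additive (Gamma0 N) →+ A) : homTLin hℓN R A φ = homT hℓN A φ := rfl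

/-- Function-level form: a function `F` on a `GL₂(ℝ)`-set with "periods" `φ` is sent by
`F ↦ ∑ₓ F ∘ M_x` to a function with periods `T_ℓ φ`. -/
theorem sum_heckeRep_smul' {Y : Type*} [MulAction (GL (Fin 2) ℝ) Y]
    (φ : Additive (Gamma0 N) →+ A) (F : Y → A)
    (hF : ∀ (γ : Gamma0 N) (y : Y),
      F (mapGL ℝ (γ : SL(2, ℤ)) • y) = φ (Additive.ofMul γ) + F y)
    (γ : Gamma0 N) (y : Y) :
    ∑ x : OnePoint (ZMod ℓ), F (heckeRep ℓ x • mapGL ℝ (γ : SL(2, ℤ)) • y) =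
      homT hℓN A φ (Additive.ofMul γ) + ∑ x : OnePoint (ZMod ℓ), F (heckeRep ℓ x • y) :=
  sum_heckeRep_smul hℓN φ F hF γ y

end T

/-! ### The operators `U_q`, `q ∣ N` -/

section U

variable {q : ℕ} [NeZero q] (hqN : q ∣ N)

omit [NeZero q] in
include hqN in
theorem natCast_dvd_lower (γ : Gamma0 N) : (q : ℤ) ∣ (γ : SL(2, ℤ)) 1 0 :=
  (Int.natCast_dvd_natCast.mpr hqN).trans
    ((ZMod.intCast_zmod_eq_zero_iff_dvd _ _).mp (Gamma0_mem.mp γ.2))

/-- The permutation of `ℤ/q` attached to `γ ∈ Γ₀(N)`, `q ∣ N`. -/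
noncomputable def permU (γ : Gamma0 N) : Equiv.Perm (ZMod q) :=
  affinePerm (γ : SL(2, ℤ))
    ((ZMod.intCast_zmod_eq_zero_iff_dvd _ _).mpr (natCast_dvd_lower hqN γ))

theorem exists_delU (γ : Gamma0 N) (x : ZMod q) :
    ∃ δ : Gamma0 N, ModularForm.heckeMatrix q x.val * mapGL ℝ (γ : SL(2, ℤ)) =
      mapGL ℝ (δ : SL(2, ℤ)) * ModularForm.heckeMatrix q (permU hqN γ x).val := by
  obtain ⟨g', hg', hmul⟩ := heckeMatrix_mul_of_dvd (γ : SL(2, ℤ)) (natCast_dvd_lower hqN γ) x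
  refine ⟨⟨g', ?_⟩, hmul⟩
  rw [Gamma0_mem, hg']
  push_cast
  rw [Gamma0_mem.mp γ.2, mul_zero]

/-- The element `δ_x ∈ Γ₀(N)` with `M_x γ = δ_x M_{σ x}` (`M_x = heckeMatrix q x.val`). -/
noncomputable def delU (γ : Gamma0 N) (x : ZMod q) : Gamma0 N :=
  (exists_delU hqN γ x).choose

theorem delU_spec (γ : Gamma0 N) (x : ZMod q) :
    ModularForm.heckeMatrix q x.val * mapGL ℝ (γ : SL(2, ℤ)) =
      mapGL ℝ (delU hqN γ x : SL(2, ℤ)) * ModularForm.heckeMatrix q (permU hqN γ x).val :=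
  (exists_delU hqN γ x).choose_spec

theorem delU_smul {Y : Type*} [MulAction (GL (Fin 2) ℝ) Y] (γ : Gamma0 N) (x : ZMod q) (y : Y) :
    ModularForm.heckeMatrix q x.val • mapGL ℝ (γ : SL(2, ℤ)) • y =
      mapGL ℝ (delU hqN γ x : SL(2, ℤ)) • ModularForm.heckeMatrix q (permU hqN γ x).val • y := by
  rw [← mul_smul, delU_spec hqN, mul_smul]

theorem sum_heckeMatrix_smul {A : Type*} [AddCommGroup A] {Y : Type*}
    [MulAction (GL (Fin 2) ℝ) Y] (φ : Additive (Gamma0 N) →+ A) (F : Y → A)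
    (hF : ∀ (γ : Gamma0 N) (y : Y),
      F (mapGL ℝ (γ : SL(2, ℤ)) • y) = φ (Additive.ofMul γ) + F y)
    (γ : Gamma0 N) (y : Y) :
    ∑ x : ZMod q, F (ModularForm.heckeMatrix q x.val • mapGL ℝ (γ : SL(2, ℤ)) • y) =
      ∑ x : ZMod q, φ (Additive.ofMul (delU hqN γ x)) +
        ∑ x : ZMod q, F (ModularForm.heckeMatrix q x.val • y) := by
  have step : ∀ x : ZMod q, F (ModularForm.heckeMatrix q x.val • mapGL ℝ (γ : SL(2, ℤ)) • y) =
      φ (Additive.ofMul (delU hqN γ x)) +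
        F (ModularForm.heckeMatrix q (permU hqN γ x).val • y) := by
    intro x
    rw [delU_smul hqN, hF]
  simp_rw [step]
  rw [Finset.sum_add_distrib]
  congr 1
  exact Equiv.sum_comp (permU hqN γ) (fun x => F (ModularForm.heckeMatrix q x.val • y))

theorem sum_delU_mul {A : Type*} [AddCommGroup A] (φ : Additive (Gamma0 N) →+ A)
    (a b : Gamma0 N) :
    ∑ x : ZMod q, φ (Additive.ofMul (delU hqN (a * b) x)) =
      ∑ x : ZMod q, φ (Additive.ofMul (delU hqN a x)) +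
        ∑ x : ZMod q, φ (Additive.ofMul (delU hqN b x)) := by
  obtain ⟨F, hF⟩ := exists_primitive_GL N φ
  have key := sum_heckeMatrix_smul hqN φ F (fun γ y => hF γ y)
  have h1 := key (a * b) 1
  have h2 := key a (mapGL ℝ (b : SL(2, ℤ)) • (1 : GL (Fin 2) ℝ))
  have h3 := key b 1
  have e : mapGL ℝ ((a * b : Gamma0 N) : SL(2, ℤ)) • (1 : GL (Fin 2) ℝ) =
      mapGL ℝ (a : SL(2, ℤ)) • mapGL ℝ (b : SL(2, ℤ)) • (1 : GL (Fin 2) ℝ) := by
    rw [Subgroup.coe_mul, map_mul, mul_smul]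
  rw [e, h2, h3] at h1
  have h4 : ∑ x : ZMod q, φ (Additive.ofMul (delU hqN a x)) +
      ∑ x : ZMod q, φ (Additive.ofMul (delU hqN b x)) +
        ∑ x : ZMod q, F (ModularForm.heckeMatrix q x.val • (1 : GL (Fin 2) ℝ)) =
      ∑ x : ZMod q, φ (Additive.ofMul (delU hqN (a * b) x)) +
        ∑ x : ZMod q, F (ModularForm.heckeMatrix q x.val • (1 : GL (Fin 2) ℝ)) := by
    rw [← h1, add_assoc]
  exact (add_right_cancel h4).symm

variable (A : Type*) [AddCommGroup A]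

/-- The Hecke operator `U_q` (`q ∣ N`) on `Hom(Γ₀(N), A)`: `(U φ)(γ) = ∑ₓ φ(δₓ)`. -/
noncomputable def homU : (Additive (Gamma0 N) →+ A) →+ (Additive (Gamma0 N) →+ A) :=
  AddMonoidHom.mk'
    (fun φ => AddMonoidHom.mk'
      (fun γ => ∑ x : ZMod q, φ (Additive.ofMul (delU hqN (Additive.toMul γ) x)))
      (fun a b => sum_delU_mul hqN φ (Additive.toMul a) (Additive.toMul b)))
    (fun φ ψ => by
      refine AddMonoidHom.ext fun γ => ?_
      simp [Finset.sum_add_distrib])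

variable {A}

theorem homU_apply (φ : Additive (Gamma0 N) →+ A) (γ : Gamma0 N) :
    homU hqN A φ (Additive.ofMul γ) = ∑ x : ZMod q, φ (Additive.ofMul (delU hqN γ x)) := rfl

theorem homU_comp {B : Type*} [AddCommGroup B] (f : A →+ B) (φ : Additive (Gamma0 N) →+ A) :
    homU hqN B (f.comp φ) = f.comp (homU hqN A φ) := by
  refine AddMonoidHom.ext fun γ => ?_
  obtain ⟨γ, rfl⟩ := Additive.ofMul.surjective γ
  simp [homU_apply]

theorem homU_smul {R : Type*} [Semiring R] [Module R A] (c : R)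
    (φ : Additive (Gamma0 N) →+ A) : homU hqN A (c • φ) = c • homU hqN A φ := by
  refine AddMonoidHom.ext fun γ => ?_
  obtain ⟨γ, rfl⟩ := Additive.ofMul.surjective γ
  simp [homU_apply, Finset.smul_sum]

/-- `U_q` as an `R`-linear map. -/
noncomputable def homULin (R : Type*) [Semiring R] (A : Type*) [AddCommGroup A] [Module R A] :
    (Additive (Gamma0 N) →+ A) →ₗ[R] (Additive (Gamma0 N) →+ A) where
  toFun := homU hqN A
  map_add' := map_add _
  map_smul' c φ := homU_smul hqN c φ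

@[simp] theorem homULin_apply (R : Type*) [Semiring R] [Module R A]
    (φ : Additive (Gamma0 N) →+ A) : homULin hqN R A φ = homU hqN A φ := rfl

theorem sum_heckeMatrix_smul' {Y : Type*} [MulAction (GL (Fin 2) ℝ) Y]
    (φ : Additive (Gamma0 N) →+ A) (F : Y → A)
    (hF : ∀ (γ : Gamma0 N) (y : Y),
      F (mapGL ℝ (γ : SL(2, ℤ)) • y) = φ (Additive.ofMul γ) + F y)
    (γ : Gamma0 N) (y : Y) :
    ∑ x : ZMod q, F (ModularForm.heckeMatrix q x.val • mapGL ℝ (γ : SL(2, ℤ)) • y) =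
      homU hqN A φ (Additive.ofMul γ) + ∑ x : ZMod q, F (ModularForm.heckeMatrix q x.val • y) :=
  sum_heckeMatrix_smul hqN φ F hF γ y

end U

end Fermat.Agent.Lib.HeckeHom
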