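import Mathlib
import Fermat.Agent.Lib.HeckeHom.Basic

/-!
# Hecke operators on `Hom(Γ₀(N), A)` commute with the involution `charInvolution`

`charInvolution` is precomposition with the conjugation by `diag(1, -1)`.  Conjugating the
standard coset representatives by `diag(1, -1)` gives representatives of the same cosets, up to
left multiplication by elements of `Γ₀(N)`; the telescoping identity does the rest.
-/

set_option autoImplicit false

open UpperHalfPlane Matrix.SpecialLinearGroup CongruenceSubgroup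
open scoped MatrixGroups ModularForm
open P2MW.S_ModularForm_heckeT_slash_eq_self_of_mem_Gamma0.ModularForm.HeckeSlashInvariance
open ModularCurve.Period

namespace Fermat.Agent.Lib.HeckeHom

/-- The matrix `diag(1, -1)` in `GL₂(ℝ)`. -/
noncomputable def Jmat : GL (Fin 2) ℝ :=
  Matrix.GeneralLinearGroup.mkOfDetNeZero !![1, 0; 0, -1] (by simp [Matrix.det_fin_two_of])

theorem Jmat_mul_mapGL (γ : SL(2, ℤ)) : Jmat * mapGL ℝ γ = mapGL ℝ (jConjSL γ) * Jmat := by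
  ext i j
  fin_cases i <;> fin_cases j <;>
    simp [Jmat, Matrix.mul_apply, Fin.sum_univ_two, jConjMat]

variable {N : ℕ}

/-- Conjugating `heckeMatrix q x` by `diag(1, -1)` gives `heckeMatrix q (-x)` up to an element of
`Γ₀(N)`. -/
theorem exists_Jmat_mul_heckeMatrix (N : ℕ) {q : ℕ} [NeZero q] (x : ZMod q) :
    ∃ τ : Gamma0 N, Jmat * ModularForm.heckeMatrix q x.val =
      mapGL ℝ (τ : SL(2, ℤ)) * ModularForm.heckeMatrix q (-x).val * Jmat := by
  have hq : q ≠ 0 := NeZero.ne q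
  obtain ⟨k, hk⟩ : (q : ℤ) ∣ (x.val : ℤ) + ((-x).val : ℤ) := by
    rw [← ZMod.intCast_zmod_eq_zero_iff_dvd]
    push_cast
    rw [ZMod.natCast_zmod_val, ZMod.natCast_zmod_val, add_neg_cancel]
  obtain ⟨τ, hT⟩ : ∃ τ : SL(2, ℤ), (τ : Matrix (Fin 2) (Fin 2) ℤ) = !![1, -k; 0, 1] :=
    ⟨ModularGroup.T ^ (-k), ModularGroup.coe_T_zpow (-k)⟩
  have hmem : τ ∈ Gamma0 N := by
    rw [Gamma0_mem, hT]
    simp
  refine ⟨⟨τ, hmem⟩, ?_⟩
  have hk' : ((x.val : ℕ) : ℝ) + (((-x).val : ℕ) : ℝ) = (q : ℝ) * (k : ℝ) := by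
    exact_mod_cast hk
  rw [ZMod.natCast_val, ZMod.natCast_val] at hk'
  ext i j
  fin_cases i <;> fin_cases j <;>
    simp [Jmat, hq, Matrix.mul_apply, Fin.sum_univ_two, hT]
  linarith

/-- Negation on `ℙ¹(𝔽_ℓ)`. -/
def negX {ℓ : ℕ} (x : OnePoint (ZMod ℓ)) : OnePoint (ZMod ℓ) :=
  x.elim OnePoint.infty (fun j => ((-j : ZMod ℓ) : OnePoint (ZMod ℓ)))

@[simp] theorem negX_infty {ℓ : ℕ} : negX (OnePoint.infty : OnePoint (ZMod ℓ)) = OnePoint.infty :=
  rfl

@[simp] theorem negX_coe {ℓ : ℕ} (j : ZMod ℓ) :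
    negX (j : OnePoint (ZMod ℓ)) = ((-j : ZMod ℓ) : OnePoint (ZMod ℓ)) := rfl

theorem negX_negX {ℓ : ℕ} (x : OnePoint (ZMod ℓ)) : negX (negX x) = x := by
  induction x using OnePoint.rec with
  | infty => rfl
  | coe j => simp

/-- Negation on `ℙ¹(𝔽_ℓ)` as a permutation. -/
def negXEquiv (ℓ : ℕ) : Equiv.Perm (OnePoint (ZMod ℓ)) :=
  ⟨negX, negX, negX_negX, negX_negX⟩

@[simp] theorem negXEquiv_apply {ℓ : ℕ} (x : OnePoint (ZMod ℓ)) : negXEquiv ℓ x = negX x := rfl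

theorem exists_Jmat_mul_heckeRep (N : ℕ) {ℓ : ℕ} [Fact ℓ.Prime] (x : OnePoint (ZMod ℓ)) :
    ∃ τ : Gamma0 N, Jmat * heckeRep ℓ x =
      mapGL ℝ (τ : SL(2, ℤ)) * heckeRep ℓ (negX x) * Jmat := by
  have hℓ : ℓ ≠ 0 := (Fact.out : ℓ.Prime).ne_zero
  induction x using OnePoint.rec with
  | infty =>
    refine ⟨1, ?_⟩
    rw [negX_infty, heckeRep_infty]
    ext i j
    fin_cases i <;> fin_cases j <;>
      simp [Jmat, hℓ, Matrix.mul_apply, Fin.sum_univ_two]
  | coe j =>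
    rw [negX_coe, heckeRep_coe, heckeRep_coe]
    exact exists_Jmat_mul_heckeMatrix N j

section T

variable {ℓ : ℕ} [Fact ℓ.Prime] (hℓN : ¬ ℓ ∣ N)

/-- `T_ℓ` commutes with the involution `φ ↦ φ ∘ (conjugation by diag(1,-1))`. -/
theorem homT_charInvolution (R : Type*) [Semiring R] (A : Type*) [AddCommGroup A] [Module R A]
    (φ : Additive (Gamma0 N) →+ A) :
    homT hℓN A (charInvolution N R A φ) = charInvolution N R A (homT hℓN A φ) := by
  refine AddMonoidHom.ext fun γ => ?_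
  obtain ⟨γ, rfl⟩ := Additive.ofMul.surjective γ
  obtain ⟨F, hF⟩ := exists_primitive_GL N φ
  choose τ hτ using exists_Jmat_mul_heckeRep N (ℓ := ℓ)
  -- `F' g = F (J g)` is a primitive of `ι φ`
  have hF' : ∀ (γ : Gamma0 N) (g : GL (Fin 2) ℝ),
      F (Jmat * (mapGL ℝ (γ : SL(2, ℤ)) • g)) =
        charInvolution N R A φ (Additive.ofMul γ) + F (Jmat * g) := by
    intro γ g
    rw [smul_eq_mul, ← mul_assoc, Jmat_mul_mapGL, mul_assoc]
    exact hF (jConjGamma0 N γ) (Jmat * g)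
  have hx : ∀ (x : OnePoint (ZMod ℓ)) (h : GL (Fin 2) ℝ),
      F (Jmat * (heckeRep ℓ x • h)) =
        φ (Additive.ofMul (τ x)) + F (heckeRep ℓ (negX x) • (Jmat * h)) := by
    intro x h
    rw [smul_eq_mul, ← mul_assoc, hτ x, mul_assoc, mul_assoc, smul_eq_mul]
    exact hF (τ x) _
  have h1 := sum_heckeRep_smul' hℓN (charInvolution N R A φ) (fun g => F (Jmat * g)) hF' γ 1
  have h2 := sum_heckeRep_smul' hℓN φ F (fun γ y => hF γ y) (jConjGamma0 N γ) (Jmat * 1)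
  simp_rw [hx] at h1
  rw [Finset.sum_add_distrib, Finset.sum_add_distrib] at h1
  have e1 : ∑ x : OnePoint (ZMod ℓ),
      F (heckeRep ℓ (negX x) • (Jmat * (mapGL ℝ (γ : SL(2, ℤ)) • (1 : GL (Fin 2) ℝ)))) =
      ∑ x : OnePoint (ZMod ℓ),
        F (heckeRep ℓ x • mapGL ℝ ((jConjGamma0 N γ : Gamma0 N) : SL(2, ℤ)) • (Jmat * 1)) := by
    refine (Finset.sum_congr rfl fun x _ => ?_).trans (Equiv.sum_comp (negXEquiv ℓ)
      (fun x => F (heckeRep ℓ x • mapGL ℝ ((jConjGamma0 N γ : Gamma0 N) : SL(2, ℤ)) •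
        (Jmat * 1))))
    rw [negXEquiv_apply, smul_eq_mul, smul_eq_mul, smul_eq_mul, smul_eq_mul, ← mul_assoc Jmat,
      Jmat_mul_mapGL, mul_assoc]
    rfl
  have e2 : ∑ x : OnePoint (ZMod ℓ), F (heckeRep ℓ (negX x) • (Jmat * (1 : GL (Fin 2) ℝ))) =
      ∑ x : OnePoint (ZMod ℓ), F (heckeRep ℓ x • (Jmat * (1 : GL (Fin 2) ℝ))) :=
    Equiv.sum_comp (negXEquiv ℓ) (fun x => F (heckeRep ℓ x • (Jmat * (1 : GL (Fin 2) ℝ))))
  rw [e1, e2, h2] at h1
  have h3 : charInvolution N R A (homT hℓN A φ) (Additive.ofMul γ) =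
      homT hℓN A φ (Additive.ofMul (jConjGamma0 N γ)) := rfl
  rw [h3]
  have h4 : homT hℓN A φ (Additive.ofMul (jConjGamma0 N γ)) +
      (∑ x : OnePoint (ZMod ℓ), φ (Additive.ofMul (τ x)) +
        ∑ x : OnePoint (ZMod ℓ), F (heckeRep ℓ x • (Jmat * (1 : GL (Fin 2) ℝ)))) =
      homT hℓN A (charInvolution N R A φ) (Additive.ofMul γ) +
        (∑ x : OnePoint (ZMod ℓ), φ (Additive.ofMul (τ x)) +
          ∑ x : OnePoint (ZMod ℓ), F (heckeRep ℓ x • (Jmat * (1 : GL (Fin 2) ℝ)))) := by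
    rw [← h1]
    abel
  exact (add_right_cancel h4).symm

end T

section U

variable {q : ℕ} [NeZero q] (hqN : q ∣ N)

/-- `U_q` commutes with the involution `φ ↦ φ ∘ (conjugation by diag(1,-1))`. -/
theorem homU_charInvolution (R : Type*) [Semiring R] (A : Type*) [AddCommGroup A] [Module R A]
    (φ : Additive (Gamma0 N) →+ A) :
    homU hqN A (charInvolution N R A φ) = charInvolution N R A (homU hqN A φ) := by
  refine AddMonoidHom.ext fun γ => ?_
  obtain ⟨γ, rfl⟩ := Additive.ofMul.surjective γ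
  obtain ⟨F, hF⟩ := exists_primitive_GL N φ
  choose τ hτ using exists_Jmat_mul_heckeMatrix N (q := q)
  have hF' : ∀ (γ : Gamma0 N) (g : GL (Fin 2) ℝ),
      F (Jmat * (mapGL ℝ (γ : SL(2, ℤ)) • g)) =
        charInvolution N R A φ (Additive.ofMul γ) + F (Jmat * g) := by
    intro γ g
    rw [smul_eq_mul, ← mul_assoc, Jmat_mul_mapGL, mul_assoc]
    exact hF (jConjGamma0 N γ) (Jmat * g)
  have hx : ∀ (x : ZMod q) (h : GL (Fin 2) ℝ),
      F (Jmat * (ModularForm.heckeMatrix q x.val • h)) =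
        φ (Additive.ofMul (τ x)) + F (ModularForm.heckeMatrix q (-x).val • (Jmat * h)) := by
    intro x h
    rw [smul_eq_mul, ← mul_assoc, hτ x, mul_assoc, mul_assoc, smul_eq_mul]
    exact hF (τ x) _
  have h1 := sum_heckeMatrix_smul' hqN (charInvolution N R A φ) (fun g => F (Jmat * g)) hF' γ 1
  have h2 := sum_heckeMatrix_smul' hqN φ F (fun γ y => hF γ y) (jConjGamma0 N γ) (Jmat * 1)
  simp_rw [hx] at h1
  rw [Finset.sum_add_distrib, Finset.sum_add_distrib] at h1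
  have e1 : ∑ x : ZMod q,
      F (ModularForm.heckeMatrix q (-x).val •
        (Jmat * (mapGL ℝ (γ : SL(2, ℤ)) • (1 : GL (Fin 2) ℝ)))) =
      ∑ x : ZMod q, F (ModularForm.heckeMatrix q x.val •
        mapGL ℝ ((jConjGamma0 N γ : Gamma0 N) : SL(2, ℤ)) • (Jmat * 1)) := by
    refine (Finset.sum_congr rfl fun x _ => ?_).trans (Equiv.sum_comp (Equiv.neg (ZMod q))
      (fun x => F (ModularForm.heckeMatrix q x.val •
        mapGL ℝ ((jConjGamma0 N γ : Gamma0 N) : SL(2, ℤ)) • (Jmat * 1))))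
    rw [Equiv.neg_apply, smul_eq_mul, smul_eq_mul, smul_eq_mul, smul_eq_mul, ← mul_assoc Jmat,
      Jmat_mul_mapGL, mul_assoc]
    rfl
  have e2 : ∑ x : ZMod q,
      F (ModularForm.heckeMatrix q (-x).val • (Jmat * (1 : GL (Fin 2) ℝ))) =
      ∑ x : ZMod q, F (ModularForm.heckeMatrix q x.val • (Jmat * (1 : GL (Fin 2) ℝ))) :=
    Equiv.sum_comp (Equiv.neg (ZMod q))
      (fun x => F (ModularForm.heckeMatrix q x.val • (Jmat * (1 : GL (Fin 2) ℝ))))
  rw [e1, e2, h2] at h1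
  have h3 : charInvolution N R A (homU hqN A φ) (Additive.ofMul γ) =
      homU hqN A φ (Additive.ofMul (jConjGamma0 N γ)) := rfl
  rw [h3]
  have h4 : homU hqN A φ (Additive.ofMul (jConjGamma0 N γ)) +
      (∑ x : ZMod q, φ (Additive.ofMul (τ x)) +
        ∑ x : ZMod q, F (ModularForm.heckeMatrix q x.val • (Jmat * (1 : GL (Fin 2) ℝ)))) =
      homU hqN A (charInvolution N R A φ) (Additive.ofMul γ) +
        (∑ x : ZMod q, φ (Additive.ofMul (τ x)) +
          ∑ x : ZMod q, F (ModularForm.heckeMatrix q x.val • (Jmat * (1 : GL (Fin 2) ℝ)))) := by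
    rw [← h1]
    abel
  exact (add_right_cancel h4).symm

end U

end Fermat.Agent.Lib.HeckeHom
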