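import Mathlib
import Fermat.Prelude.Def_CuspForm_HeckeAlgebra
import Fermat.Agent.Lib.HeckeHom.Invol
import Fermat.Agent.S21.Primitive
import Fermat.Agent.S22.EichlerHecke

/-!
# The period map of S21 intertwines the Hecke operators

`periodMap N (T_ℓ f) = homT (periodMap N f)` and `periodMap N (U_q f) = homU (periodMap N f)` for
weight-2 cusp forms on `Γ₀(N)`, and the same for `periodHomPair`.

Proof: if `F` is an equivariant primitive of `f`, then `G = ∑ₓ F ∘ M_x` (`= ℓ • heckeT 0 ℓ F`) is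
a primitive of `T_ℓ f` (Bol's identity in weight `0`, `S22/EichlerHecke`), hence differs by a
constant from any equivariant primitive of `T_ℓ f`; its periods are computed by the telescoping
identity of `Basic.lean`.
-/

set_option autoImplicit false

open UpperHalfPlane hiding I
open Matrix.SpecialLinearGroup CongruenceSubgroup Complex Derivative
open scoped MatrixGroups ModularForm Manifold Real
open P2MW.S_ModularForm_heckeT_slash_eq_self_of_mem_Gamma0.ModularForm.HeckeSlashInvariance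
open ModularCurve ModularCurve.Period

namespace Fermat.Agent.Lib.HeckeHom

/-! ### Weight zero: `ℓ • heckeT 0 ℓ F = ∑ₓ F ∘ M_x` -/

theorem smul_heckeU_zero_apply {q : ℕ} [NeZero q] (F : ℍ → ℂ) (τ : ℍ) :
    ((q : ℂ) • ModularForm.heckeU 0 q F) τ =
      ∑ x : ZMod q, F (ModularForm.heckeMatrix q x.val • τ) := by
  have hq : q ≠ 0 := NeZero.ne q
  have hq' : (q : ℂ) ≠ 0 := by exact_mod_cast hq
  rw [Pi.smul_apply, heckeU_eq_sum_zmod, Finset.sum_apply, smul_eq_mul, Finset.mul_sum]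
  refine Finset.sum_congr rfl fun x _ => ?_
  rw [ModularForm.slash_heckeMatrix_apply 0 hq, ← mul_assoc, mul_inv_cancel₀ hq', one_mul]

theorem smul_heckeT_zero_apply {ℓ : ℕ} [Fact ℓ.Prime] (F : ℍ → ℂ) (τ : ℍ) :
    ((ℓ : ℂ) • ModularForm.heckeT 0 ℓ F) τ =
      ∑ x : OnePoint (ZMod ℓ), F (heckeRep ℓ x • τ) := by
  have hℓ : ℓ ≠ 0 := (Fact.out : ℓ.Prime).ne_zero
  have hℓ' : (ℓ : ℂ) ≠ 0 := by exact_mod_cast hℓ
  rw [Pi.smul_apply, heckeT_eq_sum_onePoint, Finset.sum_apply, smul_eq_mul, Finset.mul_sum]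
  refine Finset.sum_congr rfl fun x _ => ?_
  induction x using OnePoint.rec with
  | infty =>
    rw [heckeRep_infty, ModularForm.slash_heckeDiagMatrix_apply 0 hℓ, ← mul_assoc]
    have : (ℓ : ℂ) * (ℓ : ℂ) ^ ((0 : ℤ) - 1) = 1 := by
      rw [zero_sub, zpow_neg_one, mul_inv_cancel₀ hℓ']
    rw [this, one_mul]
  | coe j =>
    rw [heckeRep_coe, ModularForm.slash_heckeMatrix_apply 0 hℓ, ← mul_assoc,
      mul_inv_cancel₀ hℓ', one_mul]

/-! ### Primitives -/

/-- If `D G = (2πi)⁻¹ • g` and `G` is holomorphic, then `G` is a primitive of `g`. -/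
theorem hasDerivAt_of_D_eq {G g : ℍ → ℂ} (hG : MDiff G)
    (hD : D G = (2 * π * I : ℂ)⁻¹ • g) (τ : ℍ) : HasDerivAt (G ∘ ofComplex) (g τ) ↑τ := by
  have h2pi : (2 * π * I : ℂ) ≠ 0 := Complex.two_pi_I_ne_zero
  have hd : DifferentiableAt ℂ (G ∘ ofComplex) ↑τ :=
    UpperHalfPlane.mdifferentiableAt_iff.mp (hG τ)
  have h := congrFun hD τ
  rw [Fermat.Agent.S22.Bol.D_apply, Pi.smul_apply, smul_eq_mul] at h
  have h' : deriv (G ∘ ofComplex) ↑τ = g τ := mul_left_cancel₀ (inv_ne_zero h2pi) h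
  rw [← h']
  exact hd.hasDerivAt

theorem D_eq_of_hasDerivAt {F f : ℍ → ℂ} (h : ∀ τ : ℍ, HasDerivAt (F ∘ ofComplex) (f τ) ↑τ) :
    D F = (2 * π * I : ℂ)⁻¹ • f := by
  funext τ
  rw [Fermat.Agent.S22.Bol.D_apply, (h τ).deriv, Pi.smul_apply, smul_eq_mul]

variable {N : ℕ} [NeZero N]

section T

variable {ℓ : ℕ} [Fact ℓ.Prime]

omit [NeZero N] in
/-- `∑ₓ F ∘ M_x` is a primitive of `T_ℓ f` when `F` is a holomorphic primitive of `f` vanishing
at `i∞`. -/
theorem hasDerivAt_sum_heckeRep (hℓ : ℓ.Prime) (hℓN : ¬ ℓ ∣ N) {f : CuspForm (Gamma0 N) 2}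
    {F : ℍ → ℂ} (hF : HasEquivariantPrimitive N f F) (hFd : MDiff F) (τ : ℍ) :
    HasDerivAt ((fun z : ℍ => ∑ x : OnePoint (ZMod ℓ), F (heckeRep ℓ x • z)) ∘ ofComplex)
      (CuspForm.heckeTLin 2 hℓ hℓN f τ) ↑τ := by
  have hz : IsZeroAtImInfty F := hF.2.1
  obtain ⟨h1, h2, -⟩ := Fermat.Agent.S22.EichlerHecke.eichler_heckeT 0 hℓ.ne_zero hFd hz
  simp only [zero_add, pow_one, Nat.cast_zero, neg_zero, Function.iterate_one] at h1 h2
  have hG : ((ℓ : ℂ) • ModularForm.heckeT 0 ℓ F) =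
      fun z : ℍ => ∑ x : OnePoint (ZMod ℓ), F (heckeRep ℓ x • z) :=
    funext fun z => smul_heckeT_zero_apply F z
  rw [← hG]
  refine hasDerivAt_of_D_eq h1 ?_ τ
  rw [h2, D_eq_of_hasDerivAt hF.1, ModularForm.heckeT_smul]
  rfl

/-- **The period map intertwines `T_ℓ`.** -/
theorem periodMap_heckeTLin (hℓ : ℓ.Prime) (hℓN : ¬ ℓ ∣ N) (f : CuspForm (Gamma0 N) 2) :
    periodMap N (CuspForm.heckeTLin 2 hℓ hℓN f) = homT hℓN ℂ (periodMap N f) := by
  obtain ⟨F, hF, hFd⟩ := Fermat.Agent.S21.exists_hasEquivariantPrimitive N f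
  obtain ⟨F', hF', -⟩ :=
    Fermat.Agent.S21.exists_hasEquivariantPrimitive N (CuspForm.heckeTLin 2 hℓ hℓN f)
  obtain ⟨c, hc⟩ := Fermat.Agent.S21.exists_const_of_hasDerivAt hF'.1
    (hasDerivAt_sum_heckeRep hℓ hℓN hF hFd)
  refine AddMonoidHom.ext fun γ => ?_
  obtain ⟨γ, rfl⟩ := Additive.ofMul.surjective γ
  have hper : ∀ (γ : Gamma0 N) (y : ℍ),
      F (mapGL ℝ (γ : SL(2, ℤ)) • y) = periodMap N f (Additive.ofMul γ) + F y := by
    intro γ y
    rw [Fermat.Agent.S21.periodMap_apply hF γ y]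
    show F ((γ : SL(2, ℤ)) • y) = _
    ring
  have key := sum_heckeRep_smul' hℓN (periodMap N f) F hper γ UpperHalfPlane.I
  rw [Fermat.Agent.S21.periodMap_apply hF' γ UpperHalfPlane.I]
  have a := hc ((γ : SL(2, ℤ)) • UpperHalfPlane.I)
  have b := hc UpperHalfPlane.I
  have key' : ∑ x : OnePoint (ZMod ℓ), F (heckeRep ℓ x • (γ : SL(2, ℤ)) • UpperHalfPlane.I) =
      homT hℓN ℂ (periodMap N f) (Additive.ofMul γ) +
        ∑ x : OnePoint (ZMod ℓ), F (heckeRep ℓ x • UpperHalfPlane.I) := key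
  linear_combination a - b + key'

/-- **`periodHomPair` intertwines `T_ℓ`.** -/
theorem periodHomPair_heckeTLin (hℓ : ℓ.Prime) (hℓN : ¬ ℓ ∣ N) (f g : CuspForm (Gamma0 N) 2) :
    periodHomPair N (CuspForm.heckeTLin 2 hℓ hℓN f, CuspForm.heckeTLin 2 hℓ hℓN g) =
      homT hℓN ℂ (periodHomPair N (f, g)) := by
  rw [Fermat.Agent.S21.periodHomPair_apply, Fermat.Agent.S21.periodHomPair_apply, ← map_add,
    ← map_sub, periodMap_heckeTLin, periodMap_heckeTLin, map_add, homT_charInvolution]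

end T

section U

variable {q : ℕ} [NeZero q]

/-- `∑ₓ F ∘ M_x` is a primitive of `U_q f`. -/
theorem hasDerivAt_sum_heckeMatrix (hqN : q ∣ N) {f : CuspForm (Gamma0 N) 2}
    {F : ℍ → ℂ} (hF : HasEquivariantPrimitive N f F) (hFd : MDiff F) (τ : ℍ) :
    HasDerivAt ((fun z : ℍ => ∑ x : ZMod q, F (ModularForm.heckeMatrix q x.val • z)) ∘ ofComplex)
      (CuspForm.heckeULin 2 hqN f τ) ↑τ := by
  have hz : IsZeroAtImInfty F := hF.2.1
  obtain ⟨h1, h2, -⟩ := Fermat.Agent.S22.EichlerHecke.eichler_heckeU 0 (NeZero.ne q) hFd hz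
  simp only [zero_add, pow_one, Nat.cast_zero, neg_zero, Function.iterate_one] at h1 h2
  have hG : ((q : ℂ) • ModularForm.heckeU 0 q F) =
      fun z : ℍ => ∑ x : ZMod q, F (ModularForm.heckeMatrix q x.val • z) :=
    funext fun z => smul_heckeU_zero_apply F z
  rw [← hG]
  refine hasDerivAt_of_D_eq h1 ?_ τ
  rw [h2, D_eq_of_hasDerivAt hF.1, ModularForm.heckeU_smul]
  rfl

/-- **The period map intertwines `U_q`.** -/
theorem periodMap_heckeULin (hqN : q ∣ N) (f : CuspForm (Gamma0 N) 2) :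
    periodMap N (CuspForm.heckeULin 2 hqN f) = homU hqN ℂ (periodMap N f) := by
  obtain ⟨F, hF, hFd⟩ := Fermat.Agent.S21.exists_hasEquivariantPrimitive N f
  obtain ⟨F', hF', -⟩ :=
    Fermat.Agent.S21.exists_hasEquivariantPrimitive N (CuspForm.heckeULin 2 hqN f)
  obtain ⟨c, hc⟩ := Fermat.Agent.S21.exists_const_of_hasDerivAt hF'.1
    (hasDerivAt_sum_heckeMatrix hqN hF hFd)
  refine AddMonoidHom.ext fun γ => ?_
  obtain ⟨γ, rfl⟩ := Additive.ofMul.surjective γ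
  have hper : ∀ (γ : Gamma0 N) (y : ℍ),
      F (mapGL ℝ (γ : SL(2, ℤ)) • y) = periodMap N f (Additive.ofMul γ) + F y := by
    intro γ y
    rw [Fermat.Agent.S21.periodMap_apply hF γ y]
    show F ((γ : SL(2, ℤ)) • y) = _
    ring
  have key := sum_heckeMatrix_smul' hqN (periodMap N f) F hper γ UpperHalfPlane.I
  rw [Fermat.Agent.S21.periodMap_apply hF' γ UpperHalfPlane.I]
  have a := hc ((γ : SL(2, ℤ)) • UpperHalfPlane.I)
  have b := hc UpperHalfPlane.I
  have key' : ∑ x : ZMod q,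
      F (ModularForm.heckeMatrix q x.val • (γ : SL(2, ℤ)) • UpperHalfPlane.I) =
      homU hqN ℂ (periodMap N f) (Additive.ofMul γ) +
        ∑ x : ZMod q, F (ModularForm.heckeMatrix q x.val • UpperHalfPlane.I) := key
  linear_combination a - b + key'

/-- **`periodHomPair` intertwines `U_q`.** -/
theorem periodHomPair_heckeULin (hqN : q ∣ N) (f g : CuspForm (Gamma0 N) 2) :
    periodHomPair N (CuspForm.heckeULin 2 hqN f, CuspForm.heckeULin 2 hqN g) =
      homU hqN ℂ (periodHomPair N (f, g)) := by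
  rw [Fermat.Agent.S21.periodHomPair_apply, Fermat.Agent.S21.periodHomPair_apply, ← map_add,
    ← map_sub, periodMap_heckeULin, periodMap_heckeULin, map_add, homU_charInvolution]

end U

end Fermat.Agent.Lib.HeckeHom
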